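/-
Fermat/Agent/AV/DimJYoga81/SchemeYoga.lean  (helper81) -- CELL AV, brick DIMJ, piece (B4).

Scheme yoga: an open subscheme `X` of `Spec H` (`H` a `k`-algebra) which is smooth over `k` is
smooth of relative dimension `g` as soon as every nontrivial standard smooth localisation
`H[1/h]` has relative dimension `g`.
-/
import Mathlib

set_option autoImplicit false

universe u

open CategoryTheory AlgebraicGeometry

namespace Fermat.Agent.AV.DimJYoga81

section Algebra

variable {k H : Type u} [Field k] [CommRing H] [Algebra k H]

/-- Algebra core of (B4): if `T = H[1/h]` is smooth over `k` and every nontrivial standard smooth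
localisation `H[1/h']` has relative dimension `g`, then `k → T` is locally standard smooth of
relative dimension `g`. -/
theorem locally_isStandardSmoothOfRelativeDimension (g : ℕ)
    (hT : ∀ (h : H) (T : Type u) [CommRing T] [Algebra H T] [Algebra k T] [IsScalarTower k H T]
      [IsLocalization.Away h T] [Nontrivial T] [Algebra.IsStandardSmooth k T],
      Algebra.IsStandardSmoothOfRelativeDimension g k T)
    (h : H) [Algebra.Smooth k (Localization.Away h)] :
    RingHom.Locally (RingHom.IsStandardSmoothOfRelativeDimension g)
      (algebraMap k (Localization.Away h)) := by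
  rw [RingHom.locally_iff_span_eq_top]
  by_contra hne
  obtain ⟨m, hm, hle⟩ := Ideal.exists_le_maximal _ hne
  obtain ⟨f, hfm, hstd⟩ :=
    Algebra.IsSmoothAt.exists_notMem_isStandardSmooth k (S := Localization.Away h) m
  refine hfm (hle (Ideal.subset_span ?_))
  change RingHom.IsStandardSmoothOfRelativeDimension g
    ((algebraMap (Localization.Away h) (Localization.Away f)).comp
      (algebraMap k (Localization.Away h)))
  rw [← IsScalarTower.algebraMap_eq, RingHom.isStandardSmoothOfRelativeDimension_algebraMap]
  -- `Localization.Away f` is a localisation of `H` away from one element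
  obtain ⟨n, f', hf'⟩ := IsLocalization.Away.surj h f
  have hu : IsUnit (algebraMap H (Localization.Away h) h ^ n) :=
    IsLocalization.Away.algebraMap_pow_isUnit h n
  have hassoc : Associated (algebraMap H (Localization.Away h) f') f := by
    refine Associated.symm ⟨hu.unit, ?_⟩
    rw [IsUnit.unit_spec]; exact hf'
  have hloc : IsLocalization.Away (h * f') (Localization.Away f) :=
    IsLocalization.Away.mul_of_associated h f' f hassoc
  have hnt : Nontrivial (Localization.Away f) := by
    rw [← not_subsingleton_iff_nontrivial,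
      IsLocalization.subsingleton_iff (M := Submonoid.powers f)]
    rintro ⟨j, hj⟩
    have : f ^ j ∈ m := by
      change (fun x ↦ f ^ x) j = 0 at hj
      simp only at hj
      rw [hj]; exact m.zero_mem
    exact hfm (hm.isPrime.mem_of_pow_mem j this)
  exact hT (h * f') (Localization.Away f)

end Algebra

section Scheme

variable {k H : Type u} [Field k] [CommRing H] [Algebra k H]

/-- For a property `P` of morphisms which is Zariski-local at the source, an open subscheme
`j : X ⟶ Spec H` composed with the structure map to `Spec k` has `P` iff all the basic opens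
`Spec H[1/h] ⟶ Spec k` contained in `X` have `P`. -/
theorem iff_forall_basicOpen (P : MorphismProperty Scheme.{u}) [IsZariskiLocalAtSource P]
    {X : Scheme.{u}} (j : X ⟶ Spec (CommRingCat.of H)) [IsOpenImmersion j] :
    P (j ≫ Spec.map (CommRingCat.ofHom (algebraMap k H))) ↔
      ∀ h : H, (PrimeSpectrum.basicOpen h : Set (PrimeSpectrum H)) ⊆ Set.range j →
        P (Spec.map (CommRingCat.ofHom (algebraMap k (Localization.Away h)))) := by
  have key : ∀ h : H, (hh : (PrimeSpectrum.basicOpen h : Set (PrimeSpectrum H)) ⊆ Set.range j) →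
      (P (Spec.map (CommRingCat.ofHom (algebraMap k (Localization.Away h)))) ↔
        P ((j ⁻¹ᵁ (PrimeSpectrum.basicOpen h)).ι ≫ j ≫
          Spec.map (CommRingCat.ofHom (algebraMap k H)))) := by
    intro h hh
    let jh := Spec.map (CommRingCat.ofHom (algebraMap H (Localization.Away h)))
    have hrange : Set.range jh = Set.range ((j ⁻¹ᵁ (PrimeSpectrum.basicOpen h)).ι ≫ j) := by
      have h1 : Set.range jh = (PrimeSpectrum.basicOpen h : Set (PrimeSpectrum H)) :=
        congrArg TopologicalSpace.Opens.carrier
          (Scheme.Hom.opensRange_localizationAway (R := CommRingCat.of H) h)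
      rw [h1]
      apply Set.ext
      intro y
      constructor
      · intro hy
        obtain ⟨x, rfl⟩ := hh hy
        exact ⟨⟨x, hy⟩, rfl⟩
      · rintro ⟨⟨x, hx⟩, rfl⟩
        exact hx
    let e := IsOpenImmersion.isoOfRangeEq jh ((j ⁻¹ᵁ (PrimeSpectrum.basicOpen h)).ι ≫ j) hrange
    have he : e.hom ≫ (j ⁻¹ᵁ (PrimeSpectrum.basicOpen h)).ι ≫ j = jh :=
      IsOpenImmersion.isoOfRangeEq_hom_fac _ _ _
    rw [← P.cancel_left_of_respectsIso e.hom, ← Category.assoc, ← Category.assoc,
      Category.assoc e.hom, he]
    have : jh ≫ Spec.map (CommRingCat.ofHom (algebraMap k H)) =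
        Spec.map (CommRingCat.ofHom (algebraMap k (Localization.Away h))) := by
      rw [← Spec.map_comp, ← CommRingCat.ofHom_comp, ← IsScalarTower.algebraMap_eq]
    rw [this]
  constructor
  · intro hP h hh
    rw [key h hh]
    exact IsZariskiLocalAtSource.comp hP _
  · intro hP
    let ι := {h : H // (PrimeSpectrum.basicOpen h : Set (PrimeSpectrum H)) ⊆ Set.range j}
    refine IsZariskiLocalAtSource.of_iSup_eq_top
      (fun h : ι ↦ j ⁻¹ᵁ (PrimeSpectrum.basicOpen h.1)) ?_ (fun h ↦ (key h.1 h.2).mp (hP h.1 h.2))
    rw [eq_top_iff]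
    intro x _
    obtain ⟨_, ⟨_, ⟨h, rfl⟩, rfl⟩, hxh, hsub⟩ :=
      PrimeSpectrum.isBasis_basic_opens.exists_subset_of_mem_open
        (show j x ∈ (j.opensRange : Set _) from ⟨x, rfl⟩) j.opensRange.isOpen
    exact TopologicalSpace.Opens.mem_iSup.mpr ⟨⟨h, hsub⟩, hxh⟩

/-- **(B4), open-immersion form.**  Let `j : X ⟶ Spec H` be an open immersion such that `X` is
smooth over `k`.  If every nontrivial standard smooth localisation `H[1/h]` of `H` has relative
dimension `g`, then `X` is smooth of relative dimension `g` over `k`. -/
theorem smoothOfRelativeDimension_of_isOpenImmersion {X : Scheme.{u}}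
    (j : X ⟶ Spec (CommRingCat.of H)) [IsOpenImmersion j] (g : ℕ)
    [Smooth (j ≫ Spec.map (CommRingCat.ofHom (algebraMap k H)))]
    (hT : ∀ (h : H) (T : Type u) [CommRing T] [Algebra H T] [Algebra k T] [IsScalarTower k H T]
      [IsLocalization.Away h T] [Nontrivial T] [Algebra.IsStandardSmooth k T],
      Algebra.IsStandardSmoothOfRelativeDimension g k T) :
    SmoothOfRelativeDimension g (j ≫ Spec.map (CommRingCat.ofHom (algebraMap k H))) := by
  have i1 : IsZariskiLocalAtSource (@SmoothOfRelativeDimension.{u} g) :=
    HasRingHomProperty.instIsZariskiLocalAtSource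
      (Q := RingHom.Locally (RingHom.IsStandardSmoothOfRelativeDimension g))
  have i2 : IsZariskiLocalAtSource (@Smooth.{u}) :=
    HasRingHomProperty.instIsZariskiLocalAtSource (Q := RingHom.Smooth)
  rw [iff_forall_basicOpen (@SmoothOfRelativeDimension g) j]
  intro h hh
  have hsm : Smooth (Spec.map (CommRingCat.ofHom (algebraMap k (Localization.Away h)))) :=
    (iff_forall_basicOpen (@Smooth) j).mp ‹_› h hh
  rw [HasRingHomProperty.Spec_iff (P := @Smooth), CommRingCat.hom_ofHom,
    RingHom.smooth_algebraMap] at hsm
  rw [HasRingHomProperty.Spec_iff (P := @SmoothOfRelativeDimension g), CommRingCat.hom_ofHom]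
  exact locally_isStandardSmoothOfRelativeDimension g hT h

/-- **(B4), open-subscheme form.** -/
theorem smoothOfRelativeDimension_of_opens_spec (U : (Spec (CommRingCat.of H)).Opens) (g : ℕ)
    [Smooth (U.ι ≫ Spec.map (CommRingCat.ofHom (algebraMap k H)))]
    (hT : ∀ (h : H) (T : Type u) [CommRing T] [Algebra H T] [Algebra k T] [IsScalarTower k H T]
      [IsLocalization.Away h T] [Nontrivial T] [Algebra.IsStandardSmooth k T],
      Algebra.IsStandardSmoothOfRelativeDimension g k T) :
    SmoothOfRelativeDimension g (U.ι ≫ Spec.map (CommRingCat.ofHom (algebraMap k H))) :=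
  smoothOfRelativeDimension_of_isOpenImmersion U.ι g hT

/-- **(B4), form with a given structure morphism** `t : X ⟶ Spec k`. -/
theorem smoothOfRelativeDimension_of_isOpenImmersion' {X : Scheme.{u}}
    (t : X ⟶ Spec (CommRingCat.of k)) [Smooth t]
    (j : X ⟶ Spec (CommRingCat.of H)) [IsOpenImmersion j]
    (htj : j ≫ Spec.map (CommRingCat.ofHom (algebraMap k H)) = t) (g : ℕ)
    (hT : ∀ (h : H) (T : Type u) [CommRing T] [Algebra H T] [Algebra k T] [IsScalarTower k H T]
      [IsLocalization.Away h T] [Nontrivial T] [Algebra.IsStandardSmooth k T],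
      Algebra.IsStandardSmoothOfRelativeDimension g k T) :
    SmoothOfRelativeDimension g t := by
  subst htj
  exact smoothOfRelativeDimension_of_isOpenImmersion j g hT

end Scheme

end Fermat.Agent.AV.DimJYoga81
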